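/-
Row 38 (RIBET), WALL-p, W-EIS leaf UNIT-EIS — formal part I (helper736):
the logarithmic derivative of the Euler product.

  `θ (∏ (1 - Xⁿ)) = - (∑ σ₁(n) Xⁿ) · ∏ (1 - Xⁿ)`      in `ℤ⟦X⟧`,   `θ = X d/dX`,

hence `θ (X · η²⁴) = E₂ · (X · η²⁴)` with `E₂ = 1 - 24 ∑ σ₁(n) Xⁿ`, and the Hecke relation
`σ₁(ℓ n) + ℓ σ₁(n / ℓ) = (ℓ + 1) σ₁(n)`.

Mathlib + Prelude (`etaProd`) + `Lib/Haupt/Formal` (`coeff_etaProd`: truncation of the Euler
product) only.
-/
import Fermat.Agent.Lib.Haupt.Formal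
import Mathlib.NumberTheory.ArithmeticFunction.Misc

set_option autoImplicit false

noncomputable section

namespace Fermat.Agent.Ribet.H736

open PowerSeries

/-! ### `θ = X d/dX` on `ℤ⟦X⟧` -/

/-- `θ = X d/dX` on integral power series. -/
def thetaPS (f : PowerSeries ℤ) : PowerSeries ℤ := PowerSeries.mk fun n => (n : ℤ) * coeff n f

@[simp]
theorem coeff_thetaPS (f : PowerSeries ℤ) (n : ℕ) :
    coeff n (thetaPS f) = (n : ℤ) * coeff n f := by
  rw [thetaPS, coeff_mk]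

theorem thetaPS_mul (f g : PowerSeries ℤ) :
    thetaPS (f * g) = thetaPS f * g + f * thetaPS g := by
  ext n
  rw [coeff_thetaPS, map_add, coeff_mul, coeff_mul, coeff_mul, Finset.mul_sum,
    ← Finset.sum_add_distrib]
  refine Finset.sum_congr rfl fun x hx => ?_
  rw [Finset.HasAntidiagonal.mem_antidiagonal] at hx
  rw [coeff_thetaPS, coeff_thetaPS, ← hx]
  push_cast
  ring

theorem thetaPS_one : thetaPS (1 : PowerSeries ℤ) = 0 := by
  ext n
  rw [coeff_thetaPS, coeff_one, map_zero]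
  split_ifs with h
  · rw [h]; simp
  · simp

theorem thetaPS_X : thetaPS (X : PowerSeries ℤ) = X := by
  ext n
  rw [coeff_thetaPS, coeff_X]
  split_ifs with h
  · rw [h]; simp
  · simp

/-- `h` has logarithmic derivative `g`. -/
def IsDlogPS (h g : PowerSeries ℤ) : Prop := thetaPS h = g * h

theorem isDlogPS_one : IsDlogPS 1 0 := by
  rw [IsDlogPS, thetaPS_one, zero_mul]

theorem isDlogPS_X : IsDlogPS X 1 := by
  rw [IsDlogPS, thetaPS_X, one_mul]

theorem IsDlogPS.mul {h₁ h₂ g₁ g₂ : PowerSeries ℤ} (H₁ : IsDlogPS h₁ g₁)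
    (H₂ : IsDlogPS h₂ g₂) : IsDlogPS (h₁ * h₂) (g₁ + g₂) := by
  unfold IsDlogPS at *
  rw [thetaPS_mul, H₁, H₂]
  ring

theorem IsDlogPS.pow {h g : PowerSeries ℤ} (H : IsDlogPS h g) (n : ℕ) :
    IsDlogPS (h ^ n) ((n : PowerSeries ℤ) * g) := by
  induction n with
  | zero => simpa using isDlogPS_one
  | succ n ih =>
    rw [pow_succ]
    have := ih.mul H
    convert this using 1
    push_cast
    ring

/-! ### The Lambert series -/

/-- `X^k / (1 - X^k) = ∑_{j ≥ 1} X^{kj}`. -/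
def lamb (k : ℕ) : PowerSeries ℤ := PowerSeries.mk fun j => if k ∣ j ∧ j ≠ 0 then 1 else 0

theorem coeff_lamb (k j : ℕ) : coeff j (lamb k) = if k ∣ j ∧ j ≠ 0 then 1 else 0 := by
  rw [lamb, coeff_mk]

theorem constantCoeff_lamb (k : ℕ) : constantCoeff (lamb k) = 0 := by
  rw [← coeff_zero_eq_constantCoeff_apply, coeff_lamb]
  simp

theorem one_sub_X_pow_mul_lamb {k : ℕ} (hk : k ≠ 0) :
    (1 - X ^ k : PowerSeries ℤ) * lamb k = X ^ k := by
  ext j
  rw [sub_mul, one_mul, map_sub, coeff_X_pow_mul', coeff_lamb, coeff_X_pow]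
  by_cases hjk : j = k
  · subst hjk
    rw [if_pos ⟨dvd_refl j, hk⟩, if_pos le_rfl, Nat.sub_self, coeff_lamb, if_pos rfl]
    simp
  · rw [if_neg hjk]
    by_cases hle : k ≤ j
    · rw [if_pos hle, coeff_lamb]
      have h1 : (k ∣ j - k) ↔ k ∣ j := by
        constructor
        · intro h
          have := Nat.dvd_add h (dvd_refl k)
          rwa [Nat.sub_add_cancel hle] at this
        · intro h
          exact Nat.dvd_sub h (dvd_refl k)
      have h2 : j - k ≠ 0 := by omega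
      have h3 : j ≠ 0 := by omega
      by_cases hd : k ∣ j
      · rw [if_pos ⟨hd, h3⟩, if_pos ⟨h1.mpr hd, h2⟩, sub_self]
      · rw [if_neg (fun h => hd h.1), if_neg (fun h => hd (h1.mp h.1)), sub_self]
    · rw [if_neg hle, sub_zero]
      by_cases h0 : j = 0
      · rw [if_neg (fun h => h.2 h0)]
      · have h1 : ¬ k ∣ j := fun h => hle (Nat.le_of_dvd (Nat.pos_of_ne_zero h0) h)
        rw [if_neg (fun h => h1 h.1)]

theorem thetaPS_one_sub_X_pow (k : ℕ) :
    thetaPS (1 - X ^ k : PowerSeries ℤ) = - ((k : PowerSeries ℤ) * X ^ k) := by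
  ext n
  have hk : ((k : PowerSeries ℤ)) = C (k : ℤ) := by simp
  rw [coeff_thetaPS, map_sub, coeff_one, coeff_X_pow, map_neg, hk, coeff_C_mul, coeff_X_pow]
  by_cases hn : n = k
  · subst hn
    by_cases h0 : n = 0
    · subst h0
      simp
    · rw [if_neg h0, if_pos rfl]
      ring
  · rw [if_neg hn]
    by_cases h0 : n = 0
    · subst h0
      simp
    · rw [if_neg h0]
      ring

theorem isDlogPS_one_sub_X_pow {k : ℕ} (hk : k ≠ 0) :
    IsDlogPS (1 - X ^ k) (- ((k : PowerSeries ℤ) * lamb k)) := by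
  rw [IsDlogPS, thetaPS_one_sub_X_pow]
  have := one_sub_X_pow_mul_lamb hk
  linear_combination (k : PowerSeries ℤ) * this

/-- The partial Lambert sums. -/
def lambSum (M : ℕ) : PowerSeries ℤ :=
  ∑ n ∈ Finset.range M, ((n + 1 : ℕ) : PowerSeries ℤ) * lamb (n + 1)

theorem isDlogPS_prod_range (M : ℕ) :
    IsDlogPS (∏ n ∈ Finset.range M, (1 - X ^ (n + 1) : PowerSeries ℤ)) (- lambSum M) := by
  induction M with
  | zero =>
    rw [Finset.prod_range_zero, lambSum, Finset.sum_range_zero, neg_zero]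
    exact isDlogPS_one
  | succ M ih =>
    rw [Finset.prod_range_succ, lambSum, Finset.sum_range_succ, neg_add]
    exact ih.mul (isDlogPS_one_sub_X_pow (Nat.succ_ne_zero M))

/-- `∑ σ₁(n) Xⁿ`. -/
def sigmaPS : PowerSeries ℤ := PowerSeries.mk fun n => ((ArithmeticFunction.sigma 1 n : ℕ) : ℤ)

theorem coeff_sigmaPS (n : ℕ) :
    coeff n sigmaPS = ((ArithmeticFunction.sigma 1 n : ℕ) : ℤ) := by
  rw [sigmaPS, coeff_mk]

theorem coeff_lambSum {M i : ℕ} (hi : i ≤ M) : coeff i (lambSum M) = coeff i sigmaPS := by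
  rw [lambSum, map_sum, coeff_sigmaPS]
  have h1 : ∀ n ∈ Finset.range M,
      coeff i (((n + 1 : ℕ) : PowerSeries ℤ) * lamb (n + 1)) =
        if (n + 1) ∣ i ∧ i ≠ 0 then ((n + 1 : ℕ) : ℤ) else 0 := by
    intro n _
    have hk : (((n + 1 : ℕ) : PowerSeries ℤ)) = C ((n + 1 : ℕ) : ℤ) := by simp
    rw [hk, coeff_C_mul, coeff_lamb]
    split_ifs <;> simp
  rw [Finset.sum_congr rfl h1]
  rcases Nat.eq_zero_or_pos i with h0 | h0
  · subst h0
    simp
  · rw [ArithmeticFunction.sigma_one_apply, Nat.cast_sum, ← Finset.sum_filter]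
    refine Finset.sum_bij (fun n _ => n + 1) ?_ ?_ ?_ ?_
    · intro n hn
      rw [Finset.mem_filter] at hn
      exact Nat.mem_divisors.mpr ⟨hn.2.1, h0.ne'⟩
    · intro a _ b _ hab
      exact Nat.succ_injective hab
    · intro d hd
      rw [Nat.mem_divisors] at hd
      have hd0 : 0 < d := Nat.pos_of_dvd_of_pos hd.1 h0
      have hdi : d ≤ i := Nat.le_of_dvd h0 hd.1
      refine ⟨d - 1, ?_, by omega⟩
      rw [Finset.mem_filter, Finset.mem_range]
      refine ⟨by omega, ?_, h0.ne'⟩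
      rw [Nat.sub_add_cancel hd0]
      exact hd.1
    · intro n _
      rfl

/-- **Logarithmic derivative of the Euler product.** -/
theorem isDlogPS_etaProd : IsDlogPS ModularCurve.etaProd (- sigmaPS) := by
  unfold IsDlogPS
  ext m
  have hP := isDlogPS_prod_range (m + 1)
  unfold IsDlogPS at hP
  have h1 := congrArg (coeff m) hP
  rw [coeff_thetaPS] at h1
  rw [coeff_thetaPS, Fermat.Agent.Lib.Haupt.coeff_etaProd (Nat.lt_succ_self m), h1,
    neg_mul, neg_mul, map_neg, map_neg, coeff_mul, coeff_mul]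
  congr 1
  refine Finset.sum_congr rfl fun x hx => ?_
  rw [Finset.HasAntidiagonal.mem_antidiagonal] at hx
  rw [coeff_lambSum (by omega : x.1 ≤ m + 1),
    Fermat.Agent.Lib.Haupt.coeff_etaProd (by omega : x.2 < m + 1)]

/-- The formal `E₂ = 1 - 24 ∑ σ₁(n) Xⁿ`. -/
def e2PS : PowerSeries ℤ := 1 - 24 * sigmaPS

theorem coeff_e2PS (n : ℕ) :
    coeff n e2PS = if n = 0 then 1 else -24 * ((ArithmeticFunction.sigma 1 n : ℕ) : ℤ) := by
  have h24 : (24 : PowerSeries ℤ) = C (24 : ℤ) := by simp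
  rw [e2PS, map_sub, coeff_one, h24, coeff_C_mul, coeff_sigmaPS]
  split_ifs with h
  · subst h
    simp
  · ring

/-- **`θ Δ = E₂ Δ`** for the formal `Δ = X η²⁴`. -/
theorem isDlogPS_delta : IsDlogPS (X * ModularCurve.dedekindEtaUnit) e2PS := by
  have h := isDlogPS_X.mul (isDlogPS_etaProd.pow 24)
  rw [ModularCurve.dedekindEtaUnit]
  convert h using 1
  rw [e2PS]
  push_cast
  ring

/-! ### The Hecke relation for `σ₁` -/

theorem sigma_one_prime_mul_of_not_dvd {ℓ n : ℕ} (hℓ : ℓ.Prime) (hn : ¬ ℓ ∣ n) :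
    ArithmeticFunction.sigma 1 (ℓ * n) = (ℓ + 1) * ArithmeticFunction.sigma 1 n := by
  have hcop : Nat.Coprime ℓ n := (Nat.Prime.coprime_iff_not_dvd hℓ).mpr hn
  rw [ArithmeticFunction.isMultiplicative_sigma.map_mul_of_coprime hcop]
  have : ArithmeticFunction.sigma 1 ℓ = ℓ + 1 := by
    have h := ArithmeticFunction.sigma_one_apply_prime_pow (i := 1) hℓ
    rw [pow_one] at h
    rw [h]
    simp [Finset.sum_range_succ, add_comm]
  rw [this]

theorem sigma_one_prime_pow_rel {ℓ : ℕ} (hℓ : ℓ.Prime) (a : ℕ) :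
    ArithmeticFunction.sigma 1 (ℓ ^ (a + 2)) + ℓ * ArithmeticFunction.sigma 1 (ℓ ^ a) =
      (ℓ + 1) * ArithmeticFunction.sigma 1 (ℓ ^ (a + 1)) := by
  rw [ArithmeticFunction.sigma_one_apply_prime_pow hℓ,
    ArithmeticFunction.sigma_one_apply_prime_pow hℓ,
    ArithmeticFunction.sigma_one_apply_prime_pow hℓ]
  have h1 : ∀ k : ℕ, ∑ j ∈ Finset.range (k + 2), ℓ ^ j =
      1 + ℓ * ∑ j ∈ Finset.range (k + 1), ℓ ^ j := by
    intro k
    rw [Finset.sum_range_succ', Finset.mul_sum, pow_zero, add_comm]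
    congr 1
    refine Finset.sum_congr rfl fun j _ => ?_
    rw [pow_succ]
    ring
  rw [h1 (a + 1), h1 a]
  ring

theorem sigma_one_prime_mul_mul {ℓ m : ℕ} (hℓ : ℓ.Prime) (hm : m ≠ 0) :
    ArithmeticFunction.sigma 1 (ℓ * (ℓ * m)) + ℓ * ArithmeticFunction.sigma 1 m =
      (ℓ + 1) * ArithmeticFunction.sigma 1 (ℓ * m) := by
  obtain ⟨a, m', hm', rfl⟩ := Nat.exists_eq_pow_mul_and_not_dvd hm ℓ hℓ.ne_one
  have hcop : ∀ k : ℕ, Nat.Coprime (ℓ ^ k) m' := fun k =>
    Nat.Coprime.pow_left k ((Nat.Prime.coprime_iff_not_dvd hℓ).mpr hm')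
  have e1 : ℓ * (ℓ * (ℓ ^ a * m')) = ℓ ^ (a + 2) * m' := by ring
  have e2 : ℓ * (ℓ ^ a * m') = ℓ ^ (a + 1) * m' := by ring
  rw [e1, e2, ArithmeticFunction.isMultiplicative_sigma.map_mul_of_coprime (hcop _),
    ArithmeticFunction.isMultiplicative_sigma.map_mul_of_coprime (hcop _),
    ArithmeticFunction.isMultiplicative_sigma.map_mul_of_coprime (hcop _)]
  have := sigma_one_prime_pow_rel hℓ a
  linear_combination (ArithmeticFunction.sigma 1 m') * this

end Fermat.Agent.Ribet.H736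

end
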