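/-
Row 38 (RIBET), WALL-p, W-EIS leaf **UNIT-EIS** (helper736):

  `unitEis : H884.UnitEisStatement`
  `kronNorm ℓ (Δ(t^p)/Δ(t)) = c · (Δ(t^p)/Δ(t)) ^ (ℓ + 1)`,  `c ≠ 0`,  `ℓ ≠ p` primes.

Route (NO infinite-product manipulation of the norm): logarithmic derivatives.
* `θ Δ = E₂ Δ` formally (`EtaDlog.lean`, truncation of the Euler product);
* `dlog (kronNorm ℓ h) = T_ℓ (dlog h)` (`H376.isDlogL_kronNorm`, on main);
* `T_ℓ E₂ = (ℓ + 1) E₂` (`σ₁(ℓn) + ℓ σ₁(n/ℓ) = (ℓ+1) σ₁(n)`), `T_ℓ V_p = V_p T_ℓ` (`ℓ ≠ p`);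
* in characteristic `0`, two nonzero series with the same logarithmic derivative differ by a
  nonzero constant.
-/
import Fermat.Agent.Ribet.H884.EisSpec
import Fermat.Agent.Ribet.H376.DlogKron
import Fermat.Agent.Ribet.H376.HeckeRedInf
import Fermat.Agent.Ribet.H736.EtaDlog

set_option autoImplicit false
set_option maxHeartbeats 400000

noncomputable section

namespace Fermat.Agent.Ribet.H736

open HahnSeries ModularCurve
open Fermat.Agent.S37 Fermat.Agent.Ribet.H376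

section Transfer

variable (k : Type*) [CommRing k]

/-- An integral power series as a Laurent series over `k`. -/
def toL : PowerSeries ℤ →+* LaurentSeries k :=
  (HahnSeries.ofPowerSeries ℤ k).comp (PowerSeries.map (Int.castRingHom k))

theorem toL_apply (f : PowerSeries ℤ) :
    toL k f = HahnSeries.ofPowerSeries ℤ k (f.map (Int.castRingHom k)) := rfl

theorem toL_coeff_natCast (f : PowerSeries ℤ) (n : ℕ) :
    (toL k f).coeff (n : ℤ) = ((PowerSeries.coeff n f : ℤ) : k) := by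
  rw [toL_apply, HahnSeries.ofPowerSeries_apply_coeff, PowerSeries.coeff_map]
  rfl

theorem toL_coeff_neg (f : PowerSeries ℤ) {n : ℤ} (hn : n < 0) : (toL k f).coeff n = 0 := by
  rw [toL_apply]
  have := PowerSeries.coeff_coe (f.map (Int.castRingHom k)) n
  rw [if_pos hn] at this
  exact this

theorem thetaL_toL (f : PowerSeries ℤ) : thetaL (toL k f) = toL k (thetaPS f) := by
  ext n
  rw [thetaL_coeff]
  rcases lt_or_ge n 0 with hn | hn
  · rw [toL_coeff_neg k _ hn, toL_coeff_neg k _ hn, mul_zero]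
  · lift n to ℕ using hn
    rw [toL_coeff_natCast, toL_coeff_natCast, coeff_thetaPS]
    push_cast
    rfl

theorem isDlogL_toL {h g : PowerSeries ℤ} (H : IsDlogPS h g) :
    IsDlogL (toL k h) (toL k g) := by
  unfold IsDlogL
  rw [thetaL_toL, H, map_mul]

theorem deltaL_eq_toL : Fermat.Agent.S28.deltaL k = toL k (PowerSeries.X * dedekindEtaUnit) := by
  rw [map_mul, Fermat.Agent.S28.deltaL, toL_apply, toL_apply, PowerSeries.map_X,
    HahnSeries.ofPowerSeries_X]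

/-- The formal `E₂` over `k`. -/
def e2L : LaurentSeries k := toL k e2PS

/-- **`θ Δ = E₂ Δ`** over any commutative ring. -/
theorem isDlogL_deltaL : IsDlogL (Fermat.Agent.S28.deltaL k) (e2L k) := by
  rw [deltaL_eq_toL]
  exact isDlogL_toL k isDlogPS_delta

theorem deltaL_mul_deltaInvL :
    Fermat.Agent.S28.deltaL k * Fermat.Agent.S28.deltaInvL k = 1 := by
  have h1 : (HahnSeries.single (1 : ℤ) (1 : k)) * HahnSeries.single (-1 : ℤ) (1 : k) = 1 := by
    rw [HahnSeries.single_mul_single, mul_one]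
    rfl
  have h2 : toL k dedekindEtaUnit * toL k dedekindEtaUnitInv = 1 := by
    rw [← map_mul, dedekindEtaUnit_mul_inv, map_one]
  rw [Fermat.Agent.S28.deltaL, Fermat.Agent.S28.deltaInvL, mul_mul_mul_comm, h1, one_mul]
  exact h2

theorem e2L_coeff_neg {n : ℤ} (hn : n < 0) : (e2L k).coeff n = 0 := toL_coeff_neg k _ hn

theorem e2L_coeff_zero : (e2L k).coeff 0 = 1 := by
  have := toL_coeff_natCast k e2PS 0
  rw [coeff_e2PS, if_pos rfl] at this
  show (toL k e2PS).coeff 0 = 1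
  simpa using this

theorem e2L_coeff_pos {n : ℕ} (hn : n ≠ 0) :
    (e2L k).coeff (n : ℤ) = -24 * ((ArithmeticFunction.sigma 1 n : ℕ) : k) := by
  rw [e2L, toL_coeff_natCast, coeff_e2PS, if_neg hn]
  push_cast
  rfl

end Transfer

section Hecke

variable {k : Type*} [CommRing k]

theorem heckeL_coeff (ℓ : ℕ) [NeZero ℓ] (g : LaurentSeries k) (n : ℤ) :
    (heckeL ℓ g).coeff n = (ℓ : k) * (qExpand k ℓ g).coeff n + g.coeff ((ℓ : ℤ) * n) := by
  rw [heckeL, coeff_add, C_mul_eq_smul, coeff_smul, smul_eq_mul, H400.secL_coeff, add_zero]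

theorem heckeL_add (ℓ : ℕ) [NeZero ℓ] (a b : LaurentSeries k) :
    heckeL ℓ (a + b) = heckeL ℓ a + heckeL ℓ b := by
  ext n
  rw [coeff_add, heckeL_coeff, heckeL_coeff, heckeL_coeff, map_add, coeff_add, coeff_add]
  ring

theorem heckeL_C_mul (ℓ : ℕ) [NeZero ℓ] (c : k) (a : LaurentSeries k) :
    heckeL ℓ (C c * a) = C c * heckeL ℓ a := by
  ext n
  rw [heckeL_coeff, map_mul, qExpand_C, C_mul_eq_smul, C_mul_eq_smul, C_mul_eq_smul,
    coeff_smul, coeff_smul, coeff_smul, heckeL_coeff]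
  simp only [smul_eq_mul]
  ring

theorem heckeL_neg (ℓ : ℕ) [NeZero ℓ] (a : LaurentSeries k) :
    heckeL ℓ (-a) = - heckeL ℓ a := by
  ext n
  rw [coeff_neg, heckeL_coeff, heckeL_coeff, map_neg, coeff_neg, coeff_neg]
  ring

theorem heckeL_qExpand (ℓ p : ℕ) [NeZero ℓ] [NeZero p] (hcop : Nat.Coprime p ℓ)
    (g : LaurentSeries k) :
    heckeL ℓ (qExpand k p g) = qExpand k p (heckeL ℓ g) := by
  have hVV : qExpand k ℓ (qExpand k p g) = qExpand k p (qExpand k ℓ g) := by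
    rw [qExpand_qExpand, qExpand_qExpand]
    exact qExpand_congr (mul_comm ℓ p) g
  ext n
  rw [heckeL_coeff, hVV]
  by_cases hn : (p : ℤ) ∣ n
  · obtain ⟨m, rfl⟩ := hn
    have e : (ℓ : ℤ) * ((p : ℤ) * m) = (p : ℤ) * ((ℓ : ℤ) * m) := by ring
    rw [qExpand_coeff_mul, e, qExpand_coeff_mul, qExpand_coeff_mul, heckeL_coeff]
  · have hn' : ¬ (p : ℤ) ∣ (ℓ : ℤ) * n := by
      intro h
      exact hn ((Nat.Coprime.isCoprime hcop).dvd_of_dvd_mul_left h)
    rw [qExpand_coeff_of_not_dvd p _ hn, qExpand_coeff_of_not_dvd p _ hn',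
      qExpand_coeff_of_not_dvd p _ hn, mul_zero, add_zero]

/-- **`T_ℓ E₂ = (ℓ + 1) E₂`.** -/
theorem heckeL_e2L {ℓ : ℕ} [NeZero ℓ] (hℓ : ℓ.Prime) :
    heckeL ℓ (e2L k) = C ((ℓ : k) + 1) * e2L k := by
  ext n
  rw [C_mul_eq_smul, coeff_smul, smul_eq_mul]
  by_cases hn : (ℓ : ℤ) ∣ n
  · obtain ⟨m, rfl⟩ := hn
    rw [heckeL_coeff_mul]
    rcases lt_trichotomy m 0 with hm | hm | hm
    · have hℓ0 : (0 : ℤ) < (ℓ : ℤ) := by exact_mod_cast hℓ.pos
      have h1 : (ℓ : ℤ) * m < 0 := mul_neg_of_pos_of_neg hℓ0 hm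
      have h2 : (ℓ : ℤ) * ((ℓ : ℤ) * m) < 0 := mul_neg_of_pos_of_neg hℓ0 h1
      rw [e2L_coeff_neg k hm, e2L_coeff_neg k h1, e2L_coeff_neg k h2]
      ring
    · subst hm
      rw [mul_zero, mul_zero, e2L_coeff_zero]
      ring
    · lift m to ℕ using hm.le
      have hm0 : m ≠ 0 := by
        rintro rfl
        exact lt_irrefl _ hm
      have e1 : (ℓ : ℤ) * (m : ℤ) = ((ℓ * m : ℕ) : ℤ) := by push_cast; ring
      have e2 : (ℓ : ℤ) * ((ℓ : ℤ) * (m : ℤ)) = ((ℓ * (ℓ * m) : ℕ) : ℤ) := by push_cast; ring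
      rw [e2, e1, e2L_coeff_pos k hm0, e2L_coeff_pos k (mul_ne_zero hℓ.ne_zero hm0),
        e2L_coeff_pos k (mul_ne_zero hℓ.ne_zero (mul_ne_zero hℓ.ne_zero hm0))]
      have h := congrArg (fun x : ℕ => (x : k)) (sigma_one_prime_mul_mul hℓ hm0)
      simp only [Nat.cast_add, Nat.cast_mul, Nat.cast_one] at h
      linear_combination (-24 : k) * h
  · rw [heckeL_coeff_of_not_dvd ℓ _ hn]
    rcases lt_or_ge n 0 with hn0 | hn0
    · have hℓ0 : (0 : ℤ) < (ℓ : ℤ) := by exact_mod_cast hℓ.pos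
      have h1 : (ℓ : ℤ) * n < 0 := mul_neg_of_pos_of_neg hℓ0 hn0
      rw [e2L_coeff_neg k hn0, e2L_coeff_neg k h1, mul_zero]
    · lift n to ℕ using hn0
      have hn' : ¬ ℓ ∣ n := fun h => hn (Int.natCast_dvd_natCast.mpr h)
      have hn0 : n ≠ 0 := by
        rintro rfl
        exact hn' (dvd_zero ℓ)
      have e1 : (ℓ : ℤ) * (n : ℤ) = ((ℓ * n : ℕ) : ℤ) := by push_cast; ring
      rw [e1, e2L_coeff_pos k hn0, e2L_coeff_pos k (mul_ne_zero hℓ.ne_zero hn0),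
        sigma_one_prime_mul_of_not_dvd hℓ hn']
      push_cast
      ring

end Hecke

section Main

variable {k : Type*} [Field k]

/-- The logarithmic derivative of the modular unit `Δ(t^p)/Δ(t)`. -/
def unitDlog (k : Type*) [Field k] (p : ℕ) [NeZero p] : LaurentSeries k :=
  C (p : k) * qExpand k p (e2L k) + - e2L k

theorem deltaL_ne_zero : Fermat.Agent.S28.deltaL k ≠ 0 :=
  left_ne_zero_of_mul_eq_one (deltaL_mul_deltaInvL k)

theorem deltaInvL_eq_inv : Fermat.Agent.S28.deltaInvL k = (Fermat.Agent.S28.deltaL k)⁻¹ :=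
  eq_inv_of_mul_eq_one_right (deltaL_mul_deltaInvL k)

theorem unitL_ne_zero (p : ℕ) [NeZero p] : Fermat.Agent.S28.unitL k p ≠ 0 := by
  rw [Fermat.Agent.S28.unitL]
  refine mul_ne_zero ?_ (right_ne_zero_of_mul_eq_one (deltaL_mul_deltaInvL k))
  intro h
  exact deltaL_ne_zero (qExpand_injective (R := k) (N := p) (by rw [h, map_zero]))

theorem isDlogL_unitL (p : ℕ) [NeZero p] :
    IsDlogL (Fermat.Agent.S28.unitL k p) (unitDlog k p) := by
  rw [Fermat.Agent.S28.unitL, deltaInvL_eq_inv, unitDlog]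
  exact isDlogL_mul (isDlogL_qExpand (isDlogL_deltaL k) p)
    (isDlogL_inv deltaL_ne_zero (isDlogL_deltaL k))

theorem heckeL_unitDlog {ℓ p : ℕ} [NeZero ℓ] [NeZero p] (hℓ : ℓ.Prime) (hp : p.Prime)
    (hℓp : ℓ ≠ p) :
    heckeL ℓ (unitDlog k p) = C ((ℓ : k) + 1) * unitDlog k p := by
  have hcop : Nat.Coprime p ℓ := (Nat.coprime_primes hp hℓ).mpr (Ne.symm hℓp)
  rw [unitDlog, heckeL_add, heckeL_C_mul, heckeL_qExpand ℓ p hcop, heckeL_neg, heckeL_e2L hℓ,
    map_mul, qExpand_C]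
  ring

/-- In characteristic `0`, a series with `θ f = 0` is constant. -/
theorem eq_C_of_thetaL_eq_zero [CharZero k] {f : LaurentSeries k} (h : thetaL f = 0) :
    f = C (f.coeff 0) := by
  ext n
  by_cases hn : n = 0
  · subst hn
    rw [HahnSeries.C_apply, HahnSeries.coeff_single_same]
  · rw [HahnSeries.C_apply, HahnSeries.coeff_single_of_ne hn]
    have h1 := congrArg (fun x : LaurentSeries k => x.coeff n) h
    simp only [thetaL_coeff, HahnSeries.coeff_zero] at h1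
    rcases mul_eq_zero.mp h1 with h2 | h2
    · exact absurd (by exact_mod_cast h2) hn
    · exact h2

/-- **UNIT-EIS over any field of characteristic `0` with a primitive `ℓ`-th root of unity.** -/
theorem kronNorm_unitL [CharZero k] {ℓ p : ℕ} [NeZero ℓ] [NeZero p] (hℓ : ℓ.Prime)
    (hp : p.Prime) (hℓp : ℓ ≠ p) {ζ : k} (hζ : IsPrimitiveRoot ζ ℓ) :
    ∃ c : k, c ≠ 0 ∧
      H400.kronNorm ℓ (Fermat.Agent.S28.unitL k p) =
        C c * Fermat.Agent.S28.unitL k p ^ (ℓ + 1) := by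
  set u := Fermat.Agent.S28.unitL k p with hu
  have hu0 : u ≠ 0 := unitL_ne_zero p
  have hℓk : (ℓ : k) ≠ 0 := by exact_mod_cast hℓ.ne_zero
  have hK0 : H400.kronNorm ℓ u ≠ 0 := kronNorm_ne_zero ℓ hζ hu0
  have hW0 : u ^ (ℓ + 1) ≠ 0 := pow_ne_zero _ hu0
  have h1 : IsDlogL (H400.kronNorm ℓ u) (heckeL ℓ (unitDlog k p)) :=
    isDlogL_kronNorm hζ hℓk (isDlogL_unitL p)
  rw [heckeL_unitDlog hℓ hp hℓp] at h1
  have h2 : IsDlogL (u ^ (ℓ + 1)) (((ℓ + 1 : ℕ) : LaurentSeries k) * unitDlog k p) :=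
    isDlogL_pow (isDlogL_unitL p) (ℓ + 1)
  have h3 := isDlogL_mul h1 (isDlogL_inv hW0 h2)
  have h4 : thetaL (H400.kronNorm ℓ u * (u ^ (ℓ + 1))⁻¹) = 0 := by
    unfold IsDlogL at h3
    rw [h3]
    have : (C ((ℓ : k) + 1) : LaurentSeries k) = ((ℓ + 1 : ℕ) : LaurentSeries k) := by
      rw [← map_natCast (C : k →+* LaurentSeries k)]
      push_cast
      rfl
    rw [this]
    ring
  have h5 := eq_C_of_thetaL_eq_zero h4
  set c := (H400.kronNorm ℓ u * (u ^ (ℓ + 1))⁻¹).coeff 0 with hc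
  refine ⟨c, ?_, ?_⟩
  · intro h0
    rw [h0, map_zero] at h5
    exact (mul_ne_zero hK0 (inv_ne_zero hW0)) h5
  · rw [← h5, mul_assoc, inv_mul_cancel₀ hW0, mul_one]

end Main

/-- **UNIT-EIS** (`H884.UnitEisStatement`, verbatim): the modular unit `Δ(t^p)/Δ(t)` is an
Eisenstein eigenfunction of the function-level Hecke operators `kronNorm ℓ`, `ℓ ≠ p`. -/
theorem unitEis : Fermat.Agent.Ribet.H884.UnitEisStatement := by
  intro p _ ℓ _ hp hℓp
  haveI : NeZero ((ℓ : ℕ) : Fermat.Agent.S24.Kbar) := ⟨by exact_mod_cast ℓ.2.ne_zero⟩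
  obtain ⟨ζ, hζ⟩ := HasEnoughRootsOfUnity.exists_primitiveRoot Fermat.Agent.S24.Kbar (ℓ : ℕ)
  obtain ⟨c, hc, h⟩ := kronNorm_unitL (k := Fermat.Agent.S24.Kbar) ℓ.2 hp hℓp hζ
  refine ⟨c, hc, ?_⟩
  rw [h]
  congr 1
  show (C c : LaurentSeries Fermat.Agent.S24.Kbar) =
    algebraMap Fermat.Agent.S24.Kbar (LaurentSeries Fermat.Agent.S24.Kbar) c
  have h1 : algebraMap Fermat.Agent.S24.Kbar (PowerSeries Fermat.Agent.S24.Kbar) c =
      PowerSeries.C c := by simp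
  rw [HahnSeries.algebraMap_apply', h1, HahnSeries.ofPowerSeries_C]

end Fermat.Agent.Ribet.H736

end
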